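/-
S55 / P3P4 input (ii) (helper69): `hloc` of `Recip15.RouteI.reciprocity_of_limit` /
`reciprocity_of_top` in its literal type, from a `p`-torsion class of `H²(𝒱_q; (ℚ̄_q)ˣ)` with
nonzero invariant (`hne`, helper85).

`kumq_surjective_torsion` : every `p`-torsion class of `H²(𝒱_q; (ℚ̄_q)ˣ)` (`Profin15` level
cohomology of `RecipGlobal20.Om q`) is a Kummer class `kumq y`.
-/
import Fermat.Agent.S55.Recip15.RouteI
import Fermat.Agent.S55.KummerTors18
import Fermat.Agent.S55.Recip70.Kummer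

set_option autoImplicit false
set_option linter.style.haveILetI false

open CategoryTheory groupCohomology ExtCitation
open Fermat.Agent.S55.Profin15 Fermat.Agent.S55.Profin15.LevelStr
open Fermat.Agent.S55.Contract34 Fermat.Agent.S55.Profin15.Plug
open Fermat.Agent.S55.ESDiv20 Fermat.Agent.S55.ESRep20 Fermat.Agent.S55.ESKummer20
open Fermat.Agent.S55.RecipGlobal20 Fermat.Agent.S55.LevelScalars13
open Fermat.Agent.S55.GlobalMod94.JS
open Fermat.Agent.S55.Recip15.Ev
open Fermat.Agent.S55.Recip15.RouteI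
open Fermat.Agent.Lib.FrobeniusExists (GQ)

namespace Fermat.Agent.S55.RecipLoc69.Hloc



/-- `(ℚ̄_q)ˣ` is smooth for the full local level structure (`Profin15` form). -/
theorem isSmooth_Om (q : Nat.Primes) : (pullLevels (primeLocalToGlobal q)).IsSmooth (Om q) :=
  fun m => Recip70.Kummer.om_isSmooth q m

/-- `(ℚ̄_q)ˣ` is divisible. -/
theorem Om_divisible (q : Nat.Primes) (n : ℕ) (hn : n ≠ 0) (e : Om q) : ∃ e' : Om q, n • e' = e :=
  Recip70.Kummer.om_divisible q n hn e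

variable {p : ℕ} [Fact p.Prime] (S : Finset Nat.Primes)

theorem embES_injective (q : ↥S) : Function.Injective (embES S q) := by
  intro a b h
  have h1 : Recip70.Kummer.zetaLoc q.1
      (((Additive.toMul (show Additive ↥(ES S) from a) : ↥(ES S)) : Qbˣ)) =
      Recip70.Kummer.zetaLoc q.1
      (((Additive.toMul (show Additive ↥(ES S) from b) : ↥(ES S)) : Qbˣ)) :=
    congrArg Additive.toMul h
  have h2 := Recip70.Kummer.zetaLoc_injective q.1 h1
  exact congrArg Additive.ofMul (Subtype.ext h2)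

/-- the additive map `μ_p → (ℚ̄_q)ˣ`, `a ↦ ι_q (ζ^a)`, underlying `kumq` -/
noncomputable def kumMap (hpS : pPrime p ∈ S) (ζ : Qbˣ) (hζ : ζ ^ p = 1) (q : ↥S) :
    Rep.res (primeLocalToGlobal q.1) (mu p) →+ Om q.1 :=
  (embRes (fun q : ↥S => Om q.1) (embES S) q).comp
    (resAdd (primeLocalToGlobal q.1) (jmu (S := S) hpS ζ hζ))

theorem kumMap_injective (hpS : pPrime p ∈ S) {ζ : Qbˣ} (hζ : IsPrimitiveRoot ζ p) (q : ↥S) :
    Function.Injective (kumMap S hpS ζ hζ.pow_eq_one q) := by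
  intro a b h
  exact jmu_injective (S := S) hpS hζ (embES_injective S q h)

/-- **every `p`-torsion class of `H²(𝒱_q; (ℚ̄_q)ˣ)` is a Kummer class.** -/
theorem kumq_surjective_torsion (hpS : pPrime p ∈ S) {ζ : Qbˣ} (hζ : IsPrimitiveRoot ζ p)
    (q : ↥S) (z : (pullLevels (primeLocalToGlobal q.1)).H2 (Om q.1)) (hz : p • z = 0) :
    ∃ y, kumq S hpS ζ hζ.pow_eq_one q y = z :=
  KummerTors18.exists_addH2map_eq_of_nsmul_eq_zero (pullLevels (primeLocalToGlobal q.1))
    (kumMap S hpS ζ hζ.pow_eq_one q)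
    (((isAddEquivariant_jmu hpS ζ hζ.pow_eq_one).res (primeLocalToGlobal q.1)).comp
      (isAddEquivariant_embRes (fun q : ↥S => Om q.1) (embES S) (embES_ρ S) q))
    (isSmooth_Om q.1) p (Om_divisible q.1 p (Fact.out : p.Prime).ne_zero)
    (kumMap_injective S hpS hζ q)
    (fun e he => Recip70.Kummer.mem_range_of_injective q.1 (kumMap S hpS ζ hζ.pow_eq_one q)
      (kumMap_injective S hpS hζ q) e he) z hz

/-- **input (ii) `hloc` of `Recip15.RouteI.reciprocity_of_limit` / `reciprocity_of_top`** from a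
`p`-torsion class with nonzero invariant at each `q ∈ S`. -/
theorem hloc_of_hne (hpS : pPrime p ∈ S) {ζ : Qbˣ} (hζ : IsPrimitiveRoot ζ p)
    {T : Type} [AddCommGroup T]
    (inv : ∀ q : ↥S, (pullLevels (primeLocalToGlobal q.1)).H2 (Om q.1) →+ T)
    (hne : ∀ q : ↥S, ∃ z : (pullLevels (primeLocalToGlobal q.1)).H2 (Om q.1),
      p • z = 0 ∧ inv q z ≠ 0) :
    ∀ q : ↥S, ∃ y, inv q (kumq S hpS ζ hζ.pow_eq_one q y) ≠ 0 := by
  intro q
  obtain ⟨z, hz, hz0⟩ := hne q
  obtain ⟨y, rfl⟩ := kumq_surjective_torsion S hpS hζ q z hz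
  exact ⟨y, hz0⟩

/-- ROUTE I with `hloc` replaced by `hne`: the remaining binders are exactly `invC` and `hcompat`
of `Recip15.RouteI.reciprocity_of_limit`. -/
theorem reciprocity_of_limit_hne (hpS : pPrime p ∈ S) {ζ : Qbˣ} (hζ : IsPrimitiveRoot ζ p)
    (inv : ∀ q : ↥S, (pullLevels (primeLocalToGlobal q.1)).H2 (Om q.1) →+ QZ33.QZ)
    (hne : ∀ q : ↥S, ∃ z : (pullLevels (primeLocalToGlobal q.1)).H2 (Om q.1),
      p • z = 0 ∧ inv q z ≠ 0) :
    type_of% (reciprocity_of_limit S hpS ζ hζ.pow_eq_one inv (hloc_of_hne S hpS hζ inv hne)) :=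
  reciprocity_of_limit S hpS ζ hζ.pow_eq_one inv (hloc_of_hne S hpS hζ inv hne)

/-- ROUTE F with `hloc` replaced by `hne`. -/
theorem reciprocity_of_top_hne (hpS : pPrime p ∈ S) {ζ : Qbˣ} (hζ : IsPrimitiveRoot ζ p)
    (inv : ∀ q : ↥S, (pullLevels (primeLocalToGlobal q.1)).H2 (Om q.1) →+ QZ33.QZ)
    (hne : ∀ q : ↥S, ∃ z : (pullLevels (primeLocalToGlobal q.1)).H2 (Om q.1),
      p • z = 0 ∧ inv q z ≠ 0)
    (hrec : ∀ z : (globalLevels S).H2 (ESRep S), p • z = 0 →
      ∑ q : ↥S, inv q (locES S q z) = 0) :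
    Reciprocity p S :=
  reciprocity_of_top S hpS ζ hζ.pow_eq_one inv (hloc_of_hne S hpS hζ inv hne) hrec

end Fermat.Agent.S55.RecipLoc69.Hloc
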