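/-
S55 / P3P4 endpoint (E1) (helper69): the inputs `OmSmooth S` and `hne` of
`RecipLevel20.reciprocity_of_invSystem` (helper20), the latter from a `p`-torsion class of
`H²(𝒱_q; (ℚ̄_q)ˣ)` with nonzero invariant.
-/
import Fermat.Agent.S55.RecipLoc69.Hloc
import Fermat.Agent.S55.RecipLevel20

set_option autoImplicit false
set_option linter.style.haveILetI false

open CategoryTheory groupCohomology ExtCitation
open Fermat.Agent.S55.Profin15 Fermat.Agent.S55.Profin15.LevelStr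
open Fermat.Agent.S55.Contract34 Fermat.Agent.S55.Profin15.Plug
open Fermat.Agent.S55.ESDiv20 Fermat.Agent.S55.ESRep20 Fermat.Agent.S55.ESKummer20
open Fermat.Agent.S55.RecipGlobal20 Fermat.Agent.S55.LevelScalars13
open Fermat.Agent.S55.RecipLevel20 Fermat.Agent.S55.LimDesc99 Fermat.Agent.S55.QZ33

namespace Fermat.Agent.S55.RecipLoc69.OmSmooth

variable {p : ℕ} [Fact p.Prime] (S : Finset Nat.Primes)

/-- **`OmSmooth S`** (Krasner): `(ℚ̄_q)ˣ` is smooth for the full local levels, `q ∈ S`. -/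
theorem omSmooth : OmSmooth S := fun q => Hloc.isSmooth_Om q.1

/-- every `p`-torsion class of `H²(𝒱_q; (ℚ̄_q)ˣ)` is a Kummer class `kumS y`. -/
theorem kumS_surjective_torsion (hpS : pPrime p ∈ S) {ζ : Qbˣ} (hζ : IsPrimitiveRoot ζ p)
    (q : ↥S) (z : (pullLevels (primeLocalToGlobal q.1)).H2 (OmS q)) (hz : p • z = 0) :
    ∃ y, kumS hpS ζ hζ.pow_eq_one q y = z :=
  Hloc.kumq_surjective_torsion S hpS hζ q z hz

/-- `hne` on Kummer classes from a `p`-torsion class with nonzero invariant. -/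
theorem hne_kumS (hpS : pPrime p ∈ S) {ζ : Qbˣ} (hζ : IsPrimitiveRoot ζ p)
    {T : Type} [AddCommGroup T]
    (inv : ∀ q : ↥S, (pullLevels (primeLocalToGlobal q.1)).H2 (OmS q) →+ T)
    (hne : ∀ q : ↥S, ∃ z : (pullLevels (primeLocalToGlobal q.1)).H2 (OmS q),
      p • z = 0 ∧ inv q z ≠ 0) :
    ∀ q : ↥S, ∃ y, inv q (kumS hpS ζ hζ.pow_eq_one q y) ≠ 0 := by
  intro q
  obtain ⟨z, hz, hz0⟩ := hne q
  obtain ⟨y, rfl⟩ := kumS_surjective_torsion S hpS hζ q z hz
  exact ⟨y, hz0⟩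

/-- **endpoint (E1) with `OmSmooth` discharged and `hne` on `p`-torsion classes**: the remaining
binder is exactly `FR` of `RecipLevel20.reciprocity_of_invSystem`. -/
theorem reciprocity_of_invSystem_hne (hpS : pPrime p ∈ S) {ζ : Qbˣ} (hζ : IsPrimitiveRoot ζ p)
    (I : ∀ q : ↥S, InvSystem (pullLevels (primeLocalToGlobal q.1)) (OmS q) QZ)
    (hne : ∀ q : ↥S, ∃ z : (pullLevels (primeLocalToGlobal q.1)).H2 (OmS q),
      p • z = 0 ∧ (I q).lim (omSmooth S q) z ≠ 0) :
    type_of% (reciprocity_of_invSystem hpS ζ hζ.pow_eq_one (omSmooth S) I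
      (hne_kumS S hpS hζ (fun q => (I q).lim (omSmooth S q)) hne)) :=
  reciprocity_of_invSystem hpS ζ hζ.pow_eq_one (omSmooth S) I
    (hne_kumS S hpS hζ (fun q => (I q).lim (omSmooth S q)) hne)

end Fermat.Agent.S55.RecipLoc69.OmSmooth
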